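import Fermat.Agent.S21_helper64.CocycleBasic

set_option autoImplicit false

namespace Fermat.Agent.S21_helper64

noncomputable section

variable {G : Type*} [Group G] (Γ : Subgroup G)

def gam (h : G) (x : G ⧸ Γ) : G := (h • x).out⁻¹ * h * x.out

lemma gam_mem (h : G) (x : G ⧸ Γ) : gam Γ h x ∈ Γ := by
  unfold gam
  rw [mul_assoc, ← QuotientGroup.eq]
  rw [QuotientGroup.out_eq']
  have : ((h * x.out : G) : G ⧸ Γ) = h • ((x.out : G) : G ⧸ Γ) := rfl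
  rw [this, QuotientGroup.out_eq']

lemma gam_mul (h h' : G) (x : G ⧸ Γ) :
    gam Γ (h * h') x = gam Γ h (h' • x) * gam Γ h' x := by
  unfold gam
  rw [mul_smul]
  group

def gamS (h : G) (x : G ⧸ Γ) : Γ := ⟨gam Γ h x, gam_mem Γ h x⟩

lemma gamS_mul (h h' : G) (x : G ⧸ Γ) :
    gamS Γ (h * h') x = gamS Γ h (h' • x) * gamS Γ h' x :=
  Subtype.ext (gam_mul Γ h h' x)

def cocOf (φ : Additive Γ →+ ℂ) : G → (G ⧸ Γ) → ℂ :=
  fun h x => φ (Additive.ofMul (gamS Γ h x))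

lemma cocOf_isCoc (φ : Additive Γ →+ ℂ) : IsCoc (cocOf Γ φ) := by
  intro h h'
  funext x
  simp only [cocOf, Pi.add_apply, Rop_apply]
  rw [gamS_mul, ofMul_mul, map_add]

lemma cocOf_add (φ ψ : Additive Γ →+ ℂ) (h : G) :
    cocOf Γ (φ + ψ) h = cocOf Γ φ h + cocOf Γ ψ h := by
  funext x; simp [cocOf]

lemma cocOf_smul (c : ℂ) (φ : Additive Γ →+ ℂ) (h : G) :
    cocOf Γ (c • φ) h = c • cocOf Γ φ h := by
  funext x; simp [cocOf]

/-- the base point -/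
def x0 : G ⧸ Γ := ((1 : G) : G ⧸ Γ)

lemma smul_x0_of_mem {γ : G} (hγ : γ ∈ Γ) : γ • x0 Γ = x0 Γ := by
  unfold x0
  have : γ • ((1 : G) : G ⧸ Γ) = ((γ * 1 : G) : G ⧸ Γ) := rfl
  rw [this, mul_one, QuotientGroup.eq]
  simpa using hγ

lemma out_x0_mem : (x0 Γ).out ∈ Γ := by
  have h : (((x0 Γ).out : G) : G ⧸ Γ) = ((1 : G) : G ⧸ Γ) := QuotientGroup.out_eq' _
  rw [QuotientGroup.eq] at h
  have h2 := Γ.inv_mem h
  simpa using h2

lemma cocOf_apply_x0 (φ : Additive Γ →+ ℂ) (γ : Γ) :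
    cocOf Γ φ (γ : G) (x0 Γ) = φ (Additive.ofMul γ) := by
  unfold cocOf
  have hγ : (γ : G) • x0 Γ = x0 Γ := smul_x0_of_mem Γ γ.2
  set o : Γ := ⟨(x0 Γ).out, out_x0_mem Γ⟩ with ho
  have : gamS Γ (γ : G) (x0 Γ) = o⁻¹ * γ * o := by
    apply Subtype.ext
    simp only [gamS, gam, hγ, ho, Subgroup.coe_mul, Subgroup.coe_inv]
  rw [this, ofMul_mul, ofMul_mul, map_add, map_add, ofMul_inv, map_neg]
  ring

/-- value of the cocycle at an element fixing `x`. -/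
lemma cocOf_apply_of_fixed (φ : Additive Γ →+ ℂ) (h : G) (x : G ⧸ Γ) (hx : h • x = x)
    (hm : (x.out)⁻¹ * h * x.out ∈ Γ) :
    cocOf Γ φ h x = φ (Additive.ofMul ⟨(x.out)⁻¹ * h * x.out, hm⟩) := by
  unfold cocOf
  congr 2
  apply Subtype.ext
  simp only [gamS, gam, hx]

lemma conj_mem_of_fixed (h : G) (x : G ⧸ Γ) (hx : h • x = x) :
    (x.out)⁻¹ * h * x.out ∈ Γ := by
  have := gam_mem Γ h x
  unfold gam at this
  rwa [hx] at this

end

end Fermat.Agent.S21_helper64
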