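import Fermat.Agent.S21_helper64.Invariants

set_option autoImplicit false

namespace Fermat.Agent.S21_helper64

open Module

noncomputable section

variable {G : Type*} [Group G] {X : Type*} [MulAction G X]

/-- the subgroup of elements leaving a function invariant -/
def stabSub (v : X → ℂ) : Subgroup G where
  carrier := {h | ∀ x, v (h • x) = v x}
  mul_mem' := by
    intro a b ha hb x
    rw [mul_smul, ha, hb]
  one_mem' := by intro x; rw [one_smul]
  inv_mem' := by
    intro a ha x
    have := ha (a⁻¹ • x)
    rw [smul_inv_smul] at this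
    exact this.symm

lemma apply_eq_of_orbitRel (g : G) (v : X → ℂ) (hv : ∀ x, v (g • x) = v x) {x y : X}
    (h : MulAction.orbitRel (Subgroup.zpowers g) X x y) : v x = v y := by
  rw [MulAction.orbitRel_apply] at h
  obtain ⟨⟨t, ht⟩, rfl⟩ := h
  have hle : Subgroup.zpowers g ≤ stabSub (G := G) v := by
    rw [Subgroup.zpowers_le]
    exact hv
  exact hle ht y

/-- invariant functions are functions on the orbit space -/
def invEquiv (g : G) :
    ↥(LinearMap.ker (Rop g - LinearMap.id : (X → ℂ) →ₗ[ℂ] (X → ℂ))) ≃ₗ[ℂ]
      (MulAction.orbitRel.Quotient (Subgroup.zpowers g) X → ℂ) where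
  toFun v := fun q => Quotient.liftOn' q v.1
    (fun _ _ h => apply_eq_of_orbitRel g v.1 ((mem_invKer g v.1).mp v.2) h)
  map_add' v w := by
    funext q
    induction q using Quotient.inductionOn' with
    | h x => rfl
  map_smul' c v := by
    funext q
    induction q using Quotient.inductionOn' with
    | h x => rfl
  invFun w := ⟨fun x => w (Quotient.mk'' x), by
    rw [mem_invKer]
    intro x
    congr 1
    apply Quotient.sound'
    rw [MulAction.orbitRel_apply]
    exact ⟨⟨g, Subgroup.mem_zpowers g⟩, rfl⟩⟩
  left_inv v := by
    apply Subtype.ext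
    funext x
    rfl
  right_inv w := by
    funext q
    induction q using Quotient.inductionOn' with
    | h x => rfl

lemma finrank_invKer_eq_card_orbits [Finite X] (g : G) :
    finrank ℂ (LinearMap.ker (Rop g - LinearMap.id : (X → ℂ) →ₗ[ℂ] (X → ℂ)))
      = Nat.card (MulAction.orbitRel.Quotient (Subgroup.zpowers g) X) := by
  classical
  have : Finite (MulAction.orbitRel.Quotient (Subgroup.zpowers g) X) :=
    Quotient.finite _
  have := Fintype.ofFinite (MulAction.orbitRel.Quotient (Subgroup.zpowers g) X)
  rw [(invEquiv g).finrank_eq, Module.finrank_fintype_fun_eq_card, Nat.card_eq_fintype_card]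

end

end Fermat.Agent.S21_helper64
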