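import Fermat.Agent.S21_helper64.CocycleMain
import Fermat.Agent.S21_helper64.Orbits
import Fermat.Agent.S20_helper27.Fixed
import Fermat.Agent.S20_helper27.Index
import Fermat.Agent.S20_helper11.CuspCount
import Fermat.Prelude.Def_ModularCurve_PeriodMap
import Fermat.Prelude.Def_ModularCurve_GenusNumerics

set_option autoImplicit false

namespace Fermat.Agent.S21_helper64

open Module Matrix MatrixGroups CongruenceSubgroup ModularGroup

noncomputable section

lemma S_mul_S_SL : (S * S : SL(2, ℤ)) = -1 := by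
  apply Subtype.ext
  rw [Matrix.SpecialLinearGroup.coe_mul, ModularGroup.S_mul_S_eq]
  simp

lemma ST_cube : ((S * T) * (S * T) * (S * T) : SL(2, ℤ)) = -1 := by
  apply Subtype.ext
  simp only [Matrix.SpecialLinearGroup.coe_mul, ModularGroup.coe_S, ModularGroup.coe_T,
    Matrix.SpecialLinearGroup.coe_neg, Matrix.SpecialLinearGroup.coe_one]
  ext i j
  fin_cases i <;> fin_cases j <;> simp [Matrix.mul_apply, Fin.sum_univ_two]

lemma closure_S_ST : Subgroup.closure ({S, S * T} : Set SL(2, ℤ)) = ⊤ := by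
  rw [eq_top_iff, ← SpecialLinearGroup.SL2Z_generators, Subgroup.closure_le]
  intro x hx
  rcases hx with rfl | rfl
  · exact Subgroup.subset_closure (by simp)
  · have h1 : S ∈ Subgroup.closure ({S, S * T} : Set SL(2, ℤ)) :=
      Subgroup.subset_closure (by simp)
    have h2 : S * T ∈ Subgroup.closure ({S, S * T} : Set SL(2, ℤ)) :=
      Subgroup.subset_closure (by simp)
    have h3 := Subgroup.mul_mem _ (Subgroup.inv_mem _ h1) h2
    rwa [inv_mul_cancel_left] at h3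

lemma setup_Gamma0 (N : ℕ) : Setup (Gamma0 N) S (S * T) (-1 : SL(2, ℤ)) where
  hS := S_mul_S_SL
  hU := ST_cube
  hzΓ := by
    rw [Gamma0_mem]
    simp
  hzc := by intro g; simp
  hgen := closure_S_ST

lemma Sinv_mul_ST : (S⁻¹ * (S * T) : SL(2, ℤ)) = T := by group

open ModularCurve.Period in
lemma parab_of_mem (N : ℕ) (φ : Additive (Gamma0 N) →+ ℂ)
    (hφ : φ ∈ parabolicHoms ℂ (Gamma0 N) ℂ) : IsParab (Γ := Gamma0 N) S (S * T) φ := by
  intro g n hm
  rw [mem_parabolicHoms_iff] at hφ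
  apply hφ
  show ((g⁻¹ * (S⁻¹ * (S * T)) ^ n * g : SL(2, ℤ)) : Matrix (Fin 2) (Fin 2) ℤ).trace ^ 2 = 4
  rw [Sinv_mul_ST]
  have htr : ((g⁻¹ * T ^ n * g : SL(2, ℤ)) : Matrix (Fin 2) (Fin 2) ℤ).trace
      = ((T ^ n : SL(2, ℤ)) : Matrix (Fin 2) (Fin 2) ℤ).trace := by
    rw [Matrix.SpecialLinearGroup.coe_mul, Matrix.SpecialLinearGroup.coe_mul,
      Matrix.trace_mul_cycle, ← Matrix.SpecialLinearGroup.coe_mul, mul_inv_cancel,
      Matrix.SpecialLinearGroup.coe_one, one_mul]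
  rw [htr]
  have hT : ((T ^ n : SL(2, ℤ)) : Matrix (Fin 2) (Fin 2) ℤ) = !![1, (n : ℤ); 0, 1] := by
    have := ModularGroup.coe_T_zpow (n : ℤ)
    rwa [zpow_natCast] at this
  rw [hT, Matrix.trace_fin_two_of]
  norm_num

open ModularCurve.Period in
lemma neg_one_of_mem (N : ℕ) (φ : Additive (Gamma0 N) →+ ℂ)
    (hφ : φ ∈ parabolicHoms ℂ (Gamma0 N) ℂ) :
    φ (Additive.ofMul ⟨(-1 : SL(2, ℤ)), (setup_Gamma0 N).hzΓ⟩) = 0 := by
  rw [mem_parabolicHoms_iff] at hφ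
  apply hφ
  show (((-1 : SL(2, ℤ)) : SL(2, ℤ)) : Matrix (Fin 2) (Fin 2) ℤ).trace ^ 2 = 4
  rw [Matrix.SpecialLinearGroup.coe_neg, Matrix.SpecialLinearGroup.coe_one, Matrix.trace_neg,
    Matrix.trace_one]
  norm_num

end

noncomputable section

open ModularCurve ModularCurve.Period Fermat.Agent.S20_helper27

variable (N : ℕ) [NeZero N]

instance finite_XN : Finite (SL(2, ℤ) ⧸ Gamma0 N) := Subgroup.finite_quotient_of_finiteIndex

lemma S_smul_smul (x : SL(2, ℤ) ⧸ Gamma0 N) : S • S • x = x := by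
  rw [← mul_smul, S_mul_S_SL]
  exact (setup_Gamma0 N).z_smul x

lemma ST_smul_smul_smul (x : SL(2, ℤ) ⧸ Gamma0 N) : (S * T) • (S * T) • (S * T) • x = x := by
  have : (S * T) • (S * T) • (S * T) • x = ((S * T) * (S * T) * (S * T)) • x := by
    simp only [mul_smul]
  rw [this, ST_cube]
  exact (setup_Gamma0 N).z_smul x

theorem parabolicHoms_main :
    Module.Finite ℂ (parabolicHoms ℂ (Gamma0 N) ℂ) ∧
    6 * finrank ℂ (parabolicHoms ℂ (Gamma0 N) ℂ) + 3 * nuTwo N + 4 * nuThree N + 6 * cuspCount N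
      ≤ dedekindPsi N + 12 := by
  obtain ⟨hfin, hle⟩ := finrank_parab_le (setup_Gamma0 N) (parabolicHoms ℂ (Gamma0 N) ℂ)
    (neg_one_of_mem N) (parab_of_mem N)
  refine ⟨hfin, ?_⟩
  have hS := two_mul_finrank_invKer (X := SL(2, ℤ) ⧸ Gamma0 N) S (S_smul_smul N)
  have hU := three_mul_finrank_invKer (X := SL(2, ℤ) ⧸ Gamma0 N) (S * T) (ST_smul_smul_smul N)
  have hT := finrank_invKer_eq_card_orbits (X := SL(2, ℤ) ⧸ Gamma0 N) (T : SL(2, ℤ))
  have hT2 := Fermat.Agent.S20_helper11.card_orbits_T N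
  replace hT : finrank ℂ (LinearMap.ker (Rop (T : SL(2, ℤ)) - LinearMap.id :
      ((SL(2, ℤ) ⧸ Gamma0 N) → ℂ) →ₗ[ℂ] _)) = cuspCount N := hT.trans hT2
  have hcard : Nat.card (SL(2, ℤ) ⧸ Gamma0 N) = dedekindPsi N := card_XN N
  have hfS : Nat.card {x : SL(2, ℤ) ⧸ Gamma0 N // S • x = x} = nuTwo N := card_fixed_S N
  have hfU : Nat.card {x : SL(2, ℤ) ⧸ Gamma0 N // (S * T) • x = x} = nuThree N := card_fixed_ST N
  rw [hcard, hfS] at hS
  rw [hcard, hfU] at hU
  rw [hcard] at hle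
  have hT' : finrank ℂ (invSub (Γ := Gamma0 N) (S⁻¹ * (S * T))) = cuspCount N := by
    rw [Sinv_mul_ST]; exact hT
  have hS' : 2 * finrank ℂ (invSub (Γ := Gamma0 N) S) = dedekindPsi N + nuTwo N := hS
  have hU' : 3 * finrank ℂ (invSub (Γ := Gamma0 N) (S * T)) = dedekindPsi N + 2 * nuThree N := hU
  omega

theorem finite_parabolicHoms : Module.Finite ℂ (parabolicHoms ℂ (Gamma0 N) ℂ) :=
  (parabolicHoms_main N).1

theorem finrank_parabolicHoms_le :
    (finrank ℂ (parabolicHoms ℂ (Gamma0 N) ℂ) : ℚ) ≤ 2 * genusFormula N := by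
  have h := (parabolicHoms_main N).2
  have hq : (6 * (finrank ℂ (parabolicHoms ℂ (Gamma0 N) ℂ) : ℚ) + 3 * (nuTwo N : ℚ)
      + 4 * (nuThree N : ℚ) + 6 * (cuspCount N : ℚ)) ≤ (dedekindPsi N : ℚ) + 12 := by
    exact_mod_cast h
  unfold genusFormula
  linarith

end

end Fermat.Agent.S21_helper64
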