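import Mathlib

set_option autoImplicit false

namespace Fermat.Agent.S21_helper64

noncomputable section

variable {G : Type*} [Group G]

section Rop

variable {X : Type*} [MulAction G X]

def Rop (h : G) : (X → ℂ) →ₗ[ℂ] (X → ℂ) := LinearMap.funLeft ℂ ℂ (fun x => h • x)

@[simp] lemma Rop_apply (h : G) (v : X → ℂ) (x : X) : Rop h v x = v (h • x) := rfl

lemma Rop_mul (h h' : G) :
    (Rop (h * h') : (X → ℂ) →ₗ[ℂ] (X → ℂ)) = (Rop h').comp (Rop h) := by
  ext v x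
  simp [mul_smul]

lemma Rop_mul_apply (h h' : G) (v : X → ℂ) : Rop (h * h') v = Rop h' (Rop h v) := by
  rw [Rop_mul]; rfl

@[simp] lemma Rop_one : (Rop (1 : G) : (X → ℂ) →ₗ[ℂ] (X → ℂ)) = LinearMap.id := by
  ext v x
  simp

lemma Rop_inv_apply (h : G) (v : X → ℂ) : Rop h (Rop h⁻¹ v) = v := by
  rw [← Rop_mul_apply]; simp

lemma Rop_inv_apply' (h : G) (v : X → ℂ) : Rop h⁻¹ (Rop h v) = v := by
  rw [← Rop_mul_apply]; simp

def IsCoc (Φ : G → X → ℂ) : Prop := ∀ h h' : G, Φ (h * h') = Rop h' (Φ h) + Φ h'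

namespace IsCoc

variable {Φ Ψ : G → X → ℂ}

lemma map_one (hΦ : IsCoc Φ) : Φ 1 = 0 := by
  have h := hΦ 1 1
  simp only [mul_one, Rop_one, LinearMap.id_apply] at h
  have : Φ 1 + 0 = Φ 1 + Φ 1 := by rw [add_zero]; exact h
  exact (add_left_cancel this).symm

lemma map_inv (hΦ : IsCoc Φ) (h : G) : Φ h⁻¹ = - Rop h⁻¹ (Φ h) := by
  have h1 := hΦ h h⁻¹
  rw [mul_inv_cancel, hΦ.map_one] at h1
  exact eq_neg_of_add_eq_zero_right h1.symm

lemma add (hΦ : IsCoc Φ) (hΨ : IsCoc Ψ) : IsCoc (fun g => Φ g + Ψ g) := by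
  intro h h'
  simp only [hΦ h h', hΨ h h', map_add]
  abel

lemma eq_zero_of_closure (hΦ : IsCoc Φ) {s : Set G} (hs : Subgroup.closure s = ⊤)
    (h0 : ∀ g ∈ s, Φ g = 0) (g : G) : Φ g = 0 := by
  have hg : g ∈ Subgroup.closure s := by rw [hs]; trivial
  induction hg using Subgroup.closure_induction with
  | mem x hx => exact h0 x hx
  | one => exact hΦ.map_one
  | mul x y _ _ hx hy => rw [hΦ x y, hx, hy, map_zero, add_zero]
  | inv x _ hx => rw [hΦ.map_inv, hx, map_zero, neg_zero]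

lemma map_pow_succ (hΦ : IsCoc Φ) (t : G) (n : ℕ) :
    Φ (t ^ (n + 1)) = Rop t (Φ (t ^ n)) + Φ t := by
  rw [pow_succ, hΦ]

end IsCoc

def cobd (v : X → ℂ) : G → X → ℂ := fun h => Rop h v - v

lemma cobd_isCoc (v : X → ℂ) : IsCoc (cobd (G := G) v) := by
  intro h h'
  simp only [cobd, Rop_mul_apply, map_sub]
  abel

end Rop

end

end Fermat.Agent.S21_helper64
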