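import Mathlib

set_option autoImplicit false

namespace Fermat.Agent.S21_helper64

open Module

section aux

variable {V : Type*} [AddCommGroup V] [Module ℂ V]

lemma isCompl_of_sq_eq_one (R : V →ₗ[ℂ] V) (hR : R.comp R = LinearMap.id) :
    IsCompl (LinearMap.ker (LinearMap.id + R)) (LinearMap.ker (R - LinearMap.id)) := by
  have hRR : ∀ v, R (R v) = v := fun v => by
    have := LinearMap.congr_fun hR v
    simpa using this
  constructor
  · rw [Submodule.disjoint_def]
    intro v h1 h2
    simp only [LinearMap.mem_ker, LinearMap.add_apply, LinearMap.id_apply, LinearMap.sub_apply] at h1 h2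
    have h3 : R v = v := sub_eq_zero.mp h2
    rw [h3] at h1
    have : (2 : ℂ) • v = 0 := by rw [two_smul]; exact h1
    exact (smul_eq_zero.mp this).resolve_left two_ne_zero
  · rw [codisjoint_iff, eq_top_iff]
    intro v _
    have hv : v = (1 / 2 : ℂ) • (v - R v) + (1 / 2 : ℂ) • (v + R v) := by
      rw [← smul_add]
      have : v - R v + (v + R v) = (2 : ℂ) • v := by rw [two_smul]; abel
      rw [this, smul_smul]; norm_num
    rw [hv]
    apply Submodule.add_mem_sup
    · apply Submodule.smul_mem
      simp only [LinearMap.mem_ker, LinearMap.add_apply, LinearMap.id_apply, map_sub, hRR]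
      abel
    · apply Submodule.smul_mem
      simp only [LinearMap.mem_ker, LinearMap.sub_apply, LinearMap.id_apply, map_add, hRR]
      abel

lemma isCompl_of_cube_eq_one (R : V →ₗ[ℂ] V) (hR : R.comp (R.comp R) = LinearMap.id) :
    IsCompl (LinearMap.ker (LinearMap.id + R + R.comp R)) (LinearMap.ker (R - LinearMap.id)) := by
  have hRRR : ∀ v, R (R (R v)) = v := fun v => by
    have := LinearMap.congr_fun hR v
    simpa using this
  constructor
  · rw [Submodule.disjoint_def]
    intro v h1 h2
    simp only [LinearMap.mem_ker, LinearMap.add_apply, LinearMap.id_apply, LinearMap.sub_apply,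
      LinearMap.comp_apply] at h1 h2
    have h3 : R v = v := sub_eq_zero.mp h2
    rw [h3, h3] at h1
    have : (3 : ℂ) • v = 0 := by
      have : (3 : ℂ) • v = v + v + v := by
        rw [show (3 : ℂ) = 1 + 1 + 1 by norm_num, add_smul, add_smul, one_smul]
      rw [this]; exact h1
    exact (smul_eq_zero.mp this).resolve_left (by norm_num)
  · rw [codisjoint_iff, eq_top_iff]
    intro v _
    have hv : v = (1 / 3 : ℂ) • ((v - R v) + (v - R (R v))) + (1 / 3 : ℂ) • (v + R v + R (R v)) := by
      rw [← smul_add]
      have : (v - R v) + (v - R (R v)) + (v + R v + R (R v)) = (3 : ℂ) • v := by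
        rw [show (3 : ℂ) = 1 + 1 + 1 by norm_num, add_smul, add_smul, one_smul]; abel
      rw [this, smul_smul]; norm_num
    rw [hv]
    apply Submodule.add_mem_sup
    · apply Submodule.smul_mem
      simp only [LinearMap.mem_ker, LinearMap.add_apply, LinearMap.id_apply, map_sub, map_add,
        LinearMap.comp_apply, hRRR]
      abel
    · apply Submodule.smul_mem
      simp only [LinearMap.mem_ker, LinearMap.sub_apply, LinearMap.id_apply, map_add, hRRR]
      abel

/-- the telescoping identity used to solve `(R - 1) w = t` when the norm of `t` vanishes -/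
lemma sub_one_apply_weighted_sum (R : V →ₗ[ℂ] V) (t : V) (M : ℕ) :
    R (∑ j ∈ Finset.range M, (j : ℂ) • (R ^ j) t) - ∑ j ∈ Finset.range M, (j : ℂ) • (R ^ j) t
      = (M : ℂ) • (R ^ M) t - R (∑ j ∈ Finset.range M, (R ^ j) t) := by
  induction M with
  | zero => simp
  | succ n ih =>
    rw [Finset.sum_range_succ, Finset.sum_range_succ, map_add, map_add]
    have e1 : R ((n : ℂ) • (R ^ n) t) = (n : ℂ) • (R ^ (n + 1)) t := by
      rw [map_smul, pow_succ', Module.End.mul_apply]
    have e2 : R ((R ^ n) t) = (R ^ (n + 1)) t := by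
      rw [pow_succ', Module.End.mul_apply]
    rw [e1, e2]
    have ih' := ih
    have : R (∑ j ∈ Finset.range n, (j : ℂ) • (R ^ j) t) + (n : ℂ) • (R ^ (n + 1)) t
        - (∑ j ∈ Finset.range n, (j : ℂ) • (R ^ j) t + (n : ℂ) • (R ^ n) t)
        = (R (∑ j ∈ Finset.range n, (j : ℂ) • (R ^ j) t) - ∑ j ∈ Finset.range n, (j : ℂ) • (R ^ j) t)
          + ((n : ℂ) • (R ^ (n + 1)) t - (n : ℂ) • (R ^ n) t) := by abel
    rw [this, ih']
    push_cast
    rw [add_smul, one_smul]
    abel

end aux

end Fermat.Agent.S21_helper64
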