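import Fermat.Agent.S21_helper64.CocycleQuot
import Fermat.Agent.S21_helper64.LinAlgAux

set_option autoImplicit false

namespace Fermat.Agent.S21_helper64

open Module

noncomputable section

variable {G : Type*} [Group G] (Γ : Subgroup G)

structure Setup (S U z : G) : Prop where
  hS : S * S = z
  hU : U * U * U = z
  hzΓ : z ∈ Γ
  hzc : ∀ g : G, g * z = z * g
  hgen : Subgroup.closure {S, U} = ⊤

variable {Γ} {S U z : G}

namespace Setup

lemma z_smul (h : Setup Γ S U z) (x : G ⧸ Γ) : z • x = x := by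
  induction x using QuotientGroup.induction_on with
  | H g =>
    show ((z * g : G) : G ⧸ Γ) = g
    rw [QuotientGroup.eq]
    have : (z * g)⁻¹ * g = z⁻¹ := by rw [← h.hzc g]; group
    rw [this]; exact Γ.inv_mem h.hzΓ

lemma Rop_z (h : Setup Γ S U z) : (Rop z : ((G ⧸ Γ) → ℂ) →ₗ[ℂ] _) = LinearMap.id := by
  ext v x
  simp [h.z_smul]

lemma Rop_S_sq (h : Setup Γ S U z) :
    (Rop S : ((G ⧸ Γ) → ℂ) →ₗ[ℂ] _).comp (Rop S) = LinearMap.id := by
  rw [← Rop_mul, h.hS, h.Rop_z]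

lemma Rop_U_cube (h : Setup Γ S U z) :
    (Rop U : ((G ⧸ Γ) → ℂ) →ₗ[ℂ] _).comp ((Rop U).comp (Rop U)) = LinearMap.id := by
  rw [← Rop_mul, ← Rop_mul, h.hU, h.Rop_z]

end Setup

/-- cocycles killing `z` -/
lemma IsCoc.S_rel (h : Setup Γ S U z) {Φ : G → (G ⧸ Γ) → ℂ} (hΦ : IsCoc Φ) (hz : Φ z = 0) :
    Φ S + Rop S (Φ S) = 0 := by
  have := hΦ S S
  rw [h.hS, hz] at this
  rw [add_comm]; exact this.symm

lemma IsCoc.U_rel (h : Setup Γ S U z) {Φ : G → (G ⧸ Γ) → ℂ} (hΦ : IsCoc Φ) (hz : Φ z = 0) :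
    Φ U + Rop U (Φ U) + Rop U (Rop U (Φ U)) = 0 := by
  have h1 := hΦ (U * U) U
  rw [h.hU, hz, hΦ U U, map_add] at h1
  rw [h1]; abel

lemma IsCoc.T_rel {Φ : G → (G ⧸ Γ) → ℂ} (hΦ : IsCoc Φ) :
    Φ (S⁻¹ * U) = Φ U - Rop (S⁻¹ * U) (Φ S) := by
  rw [hΦ S⁻¹ U, hΦ.map_inv, map_neg, ← Rop_mul_apply]
  abel

lemma cocOf_z (h : Setup Γ S U z) (φ : Additive Γ →+ ℂ)
    (hφ : φ (Additive.ofMul ⟨z, h.hzΓ⟩) = 0) : cocOf Γ φ z = 0 := by
  funext x
  rw [cocOf_apply_of_fixed Γ φ z x (h.z_smul x) (conj_mem_of_fixed Γ z x (h.z_smul x))]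
  have : (⟨(x.out)⁻¹ * z * x.out, conj_mem_of_fixed Γ z x (h.z_smul x)⟩ : Γ) = ⟨z, h.hzΓ⟩ := by
    apply Subtype.ext
    show (x.out)⁻¹ * z * x.out = z
    rw [mul_assoc, ← h.hzc, ← mul_assoc, inv_mul_cancel, one_mul]
  rw [this, hφ]; rfl

lemma cobd_z (h : Setup Γ S U z) (v : (G ⧸ Γ) → ℂ) : cobd (G := G) v z = 0 := by
  simp [cobd, h.Rop_z]

end

noncomputable section

variable {G : Type*} [Group G] (Γ : Subgroup G)

abbrev Vsp := (G ⧸ Γ) → ℂ

variable {Γ}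

def Asub (S : G) : Submodule ℂ (Vsp Γ) := LinearMap.ker (LinearMap.id + Rop S)

def Bsub (U : G) : Submodule ℂ (Vsp Γ) :=
  LinearMap.ker (LinearMap.id + Rop U + (Rop U).comp (Rop U))

def invSub (g : G) : Submodule ℂ (Vsp Γ) := LinearMap.ker (Rop g - LinearMap.id)

variable {S U z : G}

lemma finrank_Vsp [Finite (G ⧸ Γ)] : finrank ℂ (Vsp Γ) = Nat.card (G ⧸ Γ) := by
  have := Fintype.ofFinite (G ⧸ Γ)
  rw [Nat.card_eq_fintype_card]
  exact Module.finrank_fintype_fun_eq_card ℂ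

lemma finrank_Asub [Finite (G ⧸ Γ)] (h : Setup Γ S U z) :
    finrank ℂ (Asub (Γ := Γ) S) + finrank ℂ (invSub (Γ := Γ) S) = Nat.card (G ⧸ Γ) := by
  rw [← finrank_Vsp]
  exact Submodule.finrank_add_eq_of_isCompl (isCompl_of_sq_eq_one _ h.Rop_S_sq)

lemma finrank_Bsub [Finite (G ⧸ Γ)] (h : Setup Γ S U z) :
    finrank ℂ (Bsub (Γ := Γ) U) + finrank ℂ (invSub (Γ := Γ) U) = Nat.card (G ⧸ Γ) := by
  rw [← finrank_Vsp]
  exact Submodule.finrank_add_eq_of_isCompl (isCompl_of_cube_eq_one _ h.Rop_U_cube)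

/-- the map `(a, b, w) ↦ b - R_T a - (R_T w - w)` -/
def kap (S U : G) : (↥(Asub (Γ := Γ) S) × ↥(Bsub (Γ := Γ) U) × Vsp Γ) →ₗ[ℂ] Vsp Γ :=
  LinearMap.coprod (-((Rop (S⁻¹ * U)).comp (Asub S).subtype))
    (LinearMap.coprod (Bsub U).subtype (LinearMap.id - Rop (S⁻¹ * U)))

lemma kap_apply (a : ↥(Asub (Γ := Γ) S)) (b : ↥(Bsub (Γ := Γ) U)) (w : Vsp Γ) :
    kap S U (a, b, w) = (b : Vsp Γ) - Rop (S⁻¹ * U) (a : Vsp Γ) - (Rop (S⁻¹ * U) w - w) := by
  simp only [kap, LinearMap.coprod_apply, LinearMap.neg_apply, LinearMap.comp_apply,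
    Submodule.subtype_apply, LinearMap.sub_apply, LinearMap.id_apply]
  abel

lemma sub_mem_of_closure (h : Setup Γ S U z) (W : Submodule ℂ (Vsp Γ))
    (hU : ∀ v, Rop U v - v ∈ W) (hT : ∀ v, Rop (S⁻¹ * U) v - v ∈ W) (g : G) :
    ∀ v, Rop g v - v ∈ W := by
  have key : ∀ g : G, g ∈ Subgroup.closure ({S, U} : Set G) → ∀ v : Vsp Γ, Rop g v - v ∈ W := by
    intro g hg
    have hmul : ∀ x y : G, (∀ v : Vsp Γ, Rop x v - v ∈ W) → (∀ v : Vsp Γ, Rop y v - v ∈ W) →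
        ∀ v : Vsp Γ, Rop (x * y) v - v ∈ W := by
      intro x y hx hy v
      have : Rop (x * y) v - v = (Rop y (Rop x v) - Rop x v) + (Rop x v - v) := by
        rw [Rop_mul_apply]; abel
      rw [this]
      exact W.add_mem (hy _) (hx _)
    have hinv : ∀ x : G, (∀ v : Vsp Γ, Rop x v - v ∈ W) → ∀ v : Vsp Γ, Rop x⁻¹ v - v ∈ W := by
      intro x hx v
      have : Rop x⁻¹ v - v = -(Rop x (Rop x⁻¹ v) - Rop x⁻¹ v) := by
        rw [Rop_inv_apply]; abel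
      rw [this]
      exact W.neg_mem (hx _)
    induction hg using Subgroup.closure_induction with
    | mem x hx =>
      rcases hx with rfl | rfl
      · have hS : x = U * (x⁻¹ * U)⁻¹ := by group
        rw [hS]
        exact hmul _ _ hU (hinv _ hT)
      · exact hU
    | one => intro v; simp
    | mul x y _ _ hx hy => exact hmul x y hx hy
    | inv x _ hx => exact hinv x hx
  exact key g (by rw [h.hgen]; trivial)

lemma single_sub_single_mem [DecidableEq (G ⧸ Γ)] (W : Submodule ℂ (Vsp Γ))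
    (hW : ∀ (g : G) (v : Vsp Γ), Rop g v - v ∈ W) (x : G ⧸ Γ) :
    (Pi.single x (1 : ℂ) - Pi.single (x0 Γ) (1 : ℂ) : Vsp Γ) ∈ W := by
  have := hW (x.out)⁻¹ (Pi.single (x0 Γ) (1 : ℂ))
  convert this using 2
  funext y
  simp only [Rop_apply, Pi.single_apply]
  have hx : (x.out : G) • x0 Γ = x := by
    unfold x0
    have : (x.out : G) • ((1 : G) : G ⧸ Γ) = ((x.out * 1 : G) : G ⧸ Γ) := rfl
    rw [this, mul_one, QuotientGroup.out_eq']
  have hx' : x0 Γ = (x.out : G)⁻¹ • x := (smul_eq_iff_eq_inv_smul _).mp hx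
  by_cases hy : y = x
  · rw [if_pos hy, if_pos]
    rw [hy, ← hx']
  · rw [if_neg hy, if_neg]
    intro h2
    apply hy
    rw [hx'] at h2
    exact smul_left_cancel _ h2

end

noncomputable section

variable {G : Type*} [Group G] {Γ : Subgroup G} {S U z : G}

lemma Rop_U_sub_mem_Bsub (h : Setup Γ S U z) (v : Vsp Γ) : Rop U v - v ∈ Bsub (Γ := Γ) U := by
  have h3 : ∀ w : Vsp Γ, Rop U (Rop U (Rop U w)) = w := fun w => by
    have := LinearMap.congr_fun h.Rop_U_cube w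
    simpa using this
  simp only [Bsub, LinearMap.mem_ker, LinearMap.add_apply, LinearMap.id_apply,
    LinearMap.comp_apply, map_sub, h3]
  abel

lemma card_le_finrank_range_kap [Finite (G ⧸ Γ)] (h : Setup Γ S U z) :
    Nat.card (G ⧸ Γ) ≤ finrank ℂ (LinearMap.range (kap (Γ := Γ) S U)) + 1 := by
  classical
  have := Fintype.ofFinite (G ⧸ Γ)
  set W := LinearMap.range (kap (Γ := Γ) S U) with hW
  have hU : ∀ v : Vsp Γ, Rop U v - v ∈ W := by
    intro v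
    refine ⟨(0, ⟨Rop U v - v, Rop_U_sub_mem_Bsub h v⟩, 0), ?_⟩
    rw [kap_apply]; simp
  have hT : ∀ v : Vsp Γ, Rop (S⁻¹ * U) v - v ∈ W := by
    intro v
    refine ⟨(0, 0, -v), ?_⟩
    rw [kap_apply]; simp only [Submodule.coe_zero, map_zero, sub_zero, map_neg]; abel
  have hall := sub_mem_of_closure h W hU hT
  have hsingle := single_sub_single_mem W hall
  obtain ⟨L, hL, hL1⟩ : ∃ L : Submodule ℂ (Vsp Γ), (Pi.single (x0 Γ) (1 : ℂ) : Vsp Γ) ∈ L ∧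
      finrank ℂ L ≤ 1 :=
    ⟨Submodule.span ℂ {(Pi.single (x0 Γ) (1 : ℂ) : Vsp Γ)}, Submodule.subset_span rfl,
      (finrank_span_le_card ({(Pi.single (x0 Γ) (1 : ℂ) : Vsp Γ)} : Set (Vsp Γ))).trans (by simp)⟩
  have htop : (⊤ : Submodule ℂ (Vsp Γ)) ≤ W ⊔ L := by
    intro v _
    have hv : v = ∑ x : G ⧸ Γ, v x • (Pi.single x (1 : ℂ) - Pi.single (x0 Γ) (1 : ℂ) : Vsp Γ)
        + (∑ x : G ⧸ Γ, v x) • (Pi.single (x0 Γ) (1 : ℂ) : Vsp Γ) := by
      rw [Finset.sum_smul, ← Finset.sum_add_distrib]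
      simp only [smul_sub, sub_add_cancel]
      funext y
      simp [Finset.sum_apply, Pi.single_apply]
    rw [hv]
    apply Submodule.add_mem_sup
    · exact Submodule.sum_mem _ fun x _ => Submodule.smul_mem _ _ (hsingle x)
    · exact Submodule.smul_mem _ _ hL
  have h1 : finrank ℂ (Vsp Γ) ≤ finrank ℂ ↥(W ⊔ L) := by
    rw [← finrank_top ℂ (Vsp Γ)]
    exact Submodule.finrank_mono htop
  have h2 := Submodule.finrank_add_le_finrank_add_finrank W L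
  rw [finrank_Vsp] at h1
  omega

end

end Fermat.Agent.S21_helper64
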