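import Fermat.Agent.S21_helper64.CocycleCount

set_option autoImplicit false

namespace Fermat.Agent.S21_helper64

open Module

noncomputable section

variable {G : Type*} [Group G] {Γ : Subgroup G} {S U z : G}

section pow

variable {X : Type*} [MulAction G X]

lemma Rop_pow (t : G) (n : ℕ) :
    (Rop (t ^ n) : Module.End ℂ (X → ℂ)) = (Rop t : Module.End ℂ (X → ℂ)) ^ n := by
  induction n with
  | zero => simp [Module.End.one_eq_id]
  | succ n ih => rw [pow_succ, Rop_mul, ih, pow_succ', Module.End.mul_eq_comp]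

lemma IsCoc.map_pow {Φ : G → X → ℂ} (hΦ : IsCoc Φ) (t : G) (n : ℕ) :
    Φ (t ^ n) = ∑ j ∈ Finset.range n, ((Rop t : Module.End ℂ (X → ℂ)) ^ j) (Φ t) := by
  induction n with
  | zero => simpa using hΦ.map_one
  | succ n ih =>
    rw [hΦ.map_pow_succ, ih, map_sum, Finset.sum_range_succ']
    congr 1
    apply Finset.sum_congr rfl
    intro j _
    rw [pow_succ', Module.End.mul_apply]

def Wop (t : G) (M : ℕ) : (X → ℂ) →ₗ[ℂ] (X → ℂ) :=
  (1 / (M : ℂ)) • ∑ j ∈ Finset.range M, (j : ℂ) • ((Rop t : Module.End ℂ (X → ℂ)) ^ j)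

lemma IsCoc.solve {Φ : G → X → ℂ} (hΦ : IsCoc Φ) (t : G) (M : ℕ) (hM : 0 < M)
    (hfix : ∀ x : X, t ^ M • x = x) (h0 : Φ (t ^ M) = 0) :
    Rop t (Wop t M (Φ t)) - Wop t M (Φ t) = Φ t := by
  have hRM : ((Rop t : Module.End ℂ (X → ℂ)) ^ M) (Φ t) = Φ t := by
    rw [← Rop_pow]
    funext x
    simp [hfix]
  have key := sub_one_apply_weighted_sum (Rop t : (X → ℂ) →ₗ[ℂ] (X → ℂ)) (Φ t) M
  rw [← hΦ.map_pow, h0, map_zero, sub_zero, hRM] at key
  have hW : Wop t M (Φ t)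
      = (1 / (M : ℂ)) • ∑ j ∈ Finset.range M, (j : ℂ) • ((Rop t : Module.End ℂ (X → ℂ)) ^ j) (Φ t) := by
    simp [Wop, LinearMap.sum_apply]
  rw [hW, map_smul, ← smul_sub, key, smul_smul]
  have : (1 / (M : ℂ)) * (M : ℂ) = 1 := by
    have : (M : ℂ) ≠ 0 := Nat.cast_ne_zero.mpr hM.ne'
    field_simp
  rw [this, one_smul]

end pow

lemma exists_pow_smul_eq [Finite (G ⧸ Γ)] (t : G) :
    ∃ M : ℕ, 0 < M ∧ ∀ x : G ⧸ Γ, t ^ M • x = x := by
  refine ⟨orderOf (MulAction.toPermHom G (G ⧸ Γ) t), orderOf_pos _, fun x => ?_⟩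
  have := pow_orderOf_eq_one (MulAction.toPermHom G (G ⧸ Γ) t)
  rw [← map_pow] at this
  have h2 := congrArg (fun σ : Equiv.Perm (G ⧸ Γ) => σ x) this
  simpa using h2

variable (Γ) in
def cocOfLin (g : G) : (Additive Γ →+ ℂ) →ₗ[ℂ] Vsp Γ where
  toFun φ := cocOf Γ φ g
  map_add' φ ψ := cocOf_add Γ φ ψ g
  map_smul' c φ := cocOf_smul Γ c φ g

@[simp] lemma cocOfLin_apply (g : G) (φ : Additive Γ →+ ℂ) : cocOfLin Γ g φ = cocOf Γ φ g := rfl

variable (Γ) in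
def Vx0 : Submodule ℂ (Vsp Γ) := LinearMap.ker (LinearMap.proj (x0 Γ) : Vsp Γ →ₗ[ℂ] ℂ)

lemma mem_Vx0 (v : Vsp Γ) : v ∈ Vx0 Γ ↔ v (x0 Γ) = 0 := by
  simp [Vx0]

lemma finrank_Vx0 [Finite (G ⧸ Γ)] : finrank ℂ (Vx0 Γ) + 1 = Nat.card (G ⧸ Γ) := by
  have h := LinearMap.finrank_range_add_finrank_ker (LinearMap.proj (x0 Γ) : Vsp Γ →ₗ[ℂ] ℂ)
  have hsurj : LinearMap.range (LinearMap.proj (x0 Γ) : Vsp Γ →ₗ[ℂ] ℂ) = ⊤ :=
    LinearMap.range_eq_top.mpr (LinearMap.proj_surjective (x0 Γ))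
  rw [hsurj, finrank_top, Module.finrank_self, finrank_Vsp] at h
  have h' : 1 + finrank ℂ (Vx0 Γ) = Nat.card (G ⧸ Γ) := h
  omega

end

noncomputable section

variable {G : Type*} [Group G] {Γ : Subgroup G} {S U z : G}

/-- The parabolic condition in the abstract setting. -/
def IsParab (S U : G) (φ : Additive Γ →+ ℂ) : Prop :=
  ∀ (g : G) (n : ℕ) (hm : g⁻¹ * (S⁻¹ * U) ^ n * g ∈ Γ), φ (Additive.ofMul ⟨_, hm⟩) = 0

section main

variable [Finite (G ⧸ Γ)] (h : Setup Γ S U z) (P : Submodule ℂ (Additive Γ →+ ℂ))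
  (hPz : ∀ φ ∈ P, φ (Additive.ofMul ⟨z, h.hzΓ⟩) = 0)
  (hP : ∀ φ ∈ P, IsParab S U φ)

/-- the domain of the comparison map -/
abbrev Dom (P : Submodule ℂ (Additive Γ →+ ℂ)) (S U : G) :=
  ↥P × ↥(Vx0 Γ) × ↥(invSub (Γ := Γ) (S⁻¹ * U))

def pφ (P : Submodule ℂ (Additive Γ →+ ℂ)) (S U : G) : Dom P S U →ₗ[ℂ] (Additive Γ →+ ℂ) :=
  P.subtype.comp (LinearMap.fst ℂ _ _)

def pv (P : Submodule ℂ (Additive Γ →+ ℂ)) (S U : G) : Dom P S U →ₗ[ℂ] Vsp Γ :=
  (Vx0 Γ).subtype.comp ((LinearMap.fst ℂ _ _).comp (LinearMap.snd ℂ _ _))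

def pk (P : Submodule ℂ (Additive Γ →+ ℂ)) (S U : G) : Dom P S U →ₗ[ℂ] Vsp Γ :=
  (invSub (Γ := Γ) (S⁻¹ * U)).subtype.comp ((LinearMap.snd ℂ _ _).comp (LinearMap.snd ℂ _ _))

/-- the cocycle attached to `d`. -/
def cocD (P : Submodule ℂ (Additive Γ →+ ℂ)) (S U : G) (d : Dom P S U) : G → Vsp Γ :=
  fun g => cocOf Γ (pφ P S U d) g + cobd (pv P S U d) g

lemma cocD_isCoc (d : Dom P S U) : IsCoc (cocD P S U d) :=
  (cocOf_isCoc Γ _).add (cobd_isCoc _)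

include hPz in
lemma cocD_z (d : Dom P S U) : cocD P S U d z = 0 := by
  unfold cocD
  have hmem : pφ P S U d ∈ P := d.1.2
  rw [cocOf_z h _ (hPz _ hmem), cobd_z h, add_zero]

def fG (P : Submodule ℂ (Additive Γ →+ ℂ)) (S U : G) (g : G) : Dom P S U →ₗ[ℂ] Vsp Γ :=
  (cocOfLin Γ g).comp (pφ P S U) + (Rop g - LinearMap.id).comp (pv P S U)

lemma fG_apply (g : G) (d : Dom P S U) : fG P S U g d = cocD P S U d g := by
  simp [fG, cocD, cobd]

def fW (P : Submodule ℂ (Additive Γ →+ ℂ)) (S U : G) (M : ℕ) : Dom P S U →ₗ[ℂ] Vsp Γ :=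
  (Wop (S⁻¹ * U) M).comp ((cocOfLin Γ (S⁻¹ * U)).comp (pφ P S U)) + pv P S U + pk P S U

include h hPz in
lemma fG_S_mem (d : Dom P S U) : fG P S U S d ∈ Asub (Γ := Γ) S := by
  rw [fG_apply]
  have := (cocD_isCoc P d).S_rel h (cocD_z h P hPz d)
  simpa [Asub] using this

include h hPz in
lemma fG_U_mem (d : Dom P S U) : fG P S U U d ∈ Bsub (Γ := Γ) U := by
  rw [fG_apply]
  have := (cocD_isCoc P d).U_rel h (cocD_z h P hPz d)
  simpa [Bsub] using this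

def Theta (M : ℕ) : Dom P S U →ₗ[ℂ] (↥(Asub (Γ := Γ) S) × ↥(Bsub (Γ := Γ) U) × Vsp Γ) :=
  LinearMap.prod (LinearMap.codRestrict (Asub S) (fG P S U S) (fG_S_mem h P hPz))
    (LinearMap.prod (LinearMap.codRestrict (Bsub U) (fG P S U U) (fG_U_mem h P hPz))
      (fW P S U M))

lemma Theta_apply (M : ℕ) (d : Dom P S U) :
    Theta h P hPz M d = (⟨fG P S U S d, fG_S_mem h P hPz d⟩,
      ⟨fG P S U U d, fG_U_mem h P hPz d⟩, fW P S U M d) := rfl

include hP in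
lemma cocOf_pow_eq_zero (φ : Additive Γ →+ ℂ) (hφ : φ ∈ P) (M : ℕ)
    (hfix : ∀ x : G ⧸ Γ, (S⁻¹ * U) ^ M • x = x) : cocOf Γ φ ((S⁻¹ * U) ^ M) = 0 := by
  funext x
  rw [cocOf_apply_of_fixed Γ φ _ x (hfix x) (conj_mem_of_fixed Γ _ x (hfix x))]
  exact hP φ hφ x.out M _

include hP in
lemma kap_Theta (M : ℕ) (hM : 0 < M) (hfix : ∀ x : G ⧸ Γ, (S⁻¹ * U) ^ M • x = x)
    (d : Dom P S U) : kap S U (Theta h P hPz M d) = 0 := by
  have hsolve := (cocOf_isCoc Γ (pφ P S U d)).solve (S⁻¹ * U) M hM hfix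
    (cocOf_pow_eq_zero P hP _ d.1.2 M hfix)
  have hk : Rop (S⁻¹ * U) (pk P S U d) = pk P S U d := by
    have := d.2.2.2
    simp only [invSub, LinearMap.mem_ker, LinearMap.sub_apply, LinearMap.id_apply] at this
    exact sub_eq_zero.mp this
  have hT := (cocD_isCoc P d).T_rel (S := S) (U := U)
  rw [Theta_apply, kap_apply]
  simp only [fG_apply]
  rw [← hT]
  have e1 : fW P S U M d = Wop (S⁻¹ * U) M (cocOf Γ (pφ P S U d) (S⁻¹ * U)) + pv P S U d
      + pk P S U d := rfl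
  have e2 : cocD P S U d (S⁻¹ * U) = cocOf Γ (pφ P S U d) (S⁻¹ * U)
      + (Rop (S⁻¹ * U) (pv P S U d) - pv P S U d) := rfl
  have hs := eq_add_of_sub_eq hsolve
  rw [e1, e2, map_add, map_add, hk, hs]
  abel

include hP in
lemma range_Theta_le (M : ℕ) (hM : 0 < M) (hfix : ∀ x : G ⧸ Γ, (S⁻¹ * U) ^ M • x = x) :
    LinearMap.range (Theta h P hPz M) ≤ LinearMap.ker (kap (Γ := Γ) S U) := by
  rintro _ ⟨d, rfl⟩
  exact kap_Theta h P hPz hP M hM hfix d

lemma Theta_injective (M : ℕ) : Function.Injective (Theta h P hPz M) := by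
  rw [injective_iff_map_eq_zero]
  intro d hd
  rw [Theta_apply, Prod.mk_eq_zero, Prod.mk_eq_zero] at hd
  obtain ⟨hA, hB, hW⟩ := hd
  have hA' : cocD P S U d S = 0 := by
    rw [← fG_apply]
    have := congrArg Subtype.val hA
    simpa using this
  have hB' : cocD P S U d U = 0 := by
    rw [← fG_apply]
    have := congrArg Subtype.val hB
    simpa using this
  have hall : ∀ g, cocD P S U d g = 0 := by
    refine (cocD_isCoc P d).eq_zero_of_closure h.hgen ?_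
    intro g hg
    rcases hg with rfl | rfl
    · exact hA'
    · exact hB'
  -- φ = 0
  have hv0 : pv P S U d (x0 Γ) = 0 := (mem_Vx0 _).mp d.2.1.2
  have hφ : pφ P S U d = 0 := by
    apply AddMonoidHom.ext
    intro γ
    have hγ := congrFun (hall ((Additive.toMul γ : Γ) : G)) (x0 Γ)
    simp only [cocD, Pi.add_apply, cobd, Pi.sub_apply, Rop_apply, Pi.zero_apply] at hγ
    rw [cocOf_apply_x0, smul_x0_of_mem Γ (Additive.toMul γ).2, sub_self, add_zero] at hγ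
    simpa using hγ
  have hv : pv P S U d = 0 := by
    funext x
    have hx : (x.out : G) • x0 Γ = x := by
      unfold x0
      have : (x.out : G) • ((1 : G) : G ⧸ Γ) = ((x.out * 1 : G) : G ⧸ Γ) := rfl
      rw [this, mul_one, QuotientGroup.out_eq']
    have hg := congrFun (hall (x.out : G)) (x0 Γ)
    simp only [cocD, hφ, Pi.add_apply, cobd, Pi.sub_apply, Rop_apply, Pi.zero_apply] at hg
    have hc : cocOf Γ 0 (x.out : G) (x0 Γ) = 0 := by simp [cocOf]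
    rw [hc, zero_add, hx, hv0, sub_zero] at hg
    simpa using hg
  have hk : pk P S U d = 0 := by
    have : fW P S U M d = 0 := hW
    simp only [fW, LinearMap.add_apply, LinearMap.comp_apply, hφ, hv, map_zero, zero_add] at this
    exact this
  obtain ⟨⟨φ, hφP⟩, ⟨v, hvV⟩, ⟨k, hkV⟩⟩ := d
  simp only [pφ, pv, pk, LinearMap.comp_apply, LinearMap.fst_apply, LinearMap.snd_apply,
    Submodule.subtype_apply] at hφ hv hk
  subst hφ hv hk
  rfl

include h hPz hP in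
theorem finrank_parab_le :
    Module.Finite ℂ P ∧
    finrank ℂ P + finrank ℂ (invSub (Γ := Γ) S) + finrank ℂ (invSub (Γ := Γ) U)
      + finrank ℂ (invSub (Γ := Γ) (S⁻¹ * U)) ≤ Nat.card (G ⧸ Γ) + 2 := by
  obtain ⟨M, hM, hfix⟩ := exists_pow_smul_eq (Γ := Γ) (S⁻¹ * U)
  have hinj := Theta_injective h P hPz M
  have hfinP : Module.Finite ℂ P :=
    Module.Finite.of_injective ((Theta h P hPz M).comp (LinearMap.inl ℂ _ _))
      (hinj.comp LinearMap.inl_injective)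
  refine ⟨hfinP, ?_⟩
  have h1 : finrank ℂ (Dom P S U) ≤ finrank ℂ (LinearMap.ker (kap (Γ := Γ) S U)) := by
    rw [← LinearMap.finrank_range_of_inj hinj]
    exact Submodule.finrank_mono (range_Theta_le h P hPz hP M hM hfix)
  have h2 := LinearMap.finrank_range_add_finrank_ker (kap (Γ := Γ) S U)
  have h3 : finrank ℂ (↥(Asub (Γ := Γ) S) × ↥(Bsub (Γ := Γ) U) × Vsp Γ)
      = finrank ℂ (Asub (Γ := Γ) S) + (finrank ℂ (Bsub (Γ := Γ) U) + Nat.card (G ⧸ Γ)) := by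
    rw [Module.finrank_prod, Module.finrank_prod, finrank_Vsp]
  have h4 : finrank ℂ (Dom P S U)
      = finrank ℂ P + (finrank ℂ (Vx0 Γ) + finrank ℂ (invSub (Γ := Γ) (S⁻¹ * U))) := by
    rw [Module.finrank_prod, Module.finrank_prod]
  have h5 := finrank_Vx0 (Γ := Γ)
  have h6 := finrank_Asub h
  have h7 := finrank_Bsub h
  have h8 := card_le_finrank_range_kap h
  omega

end main

end

end Fermat.Agent.S21_helper64
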