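import Fermat.Agent.S21_helper64.ParabolicBound
import Fermat.Agent.S21_helper65.Assembly
import Fermat.Agent.S21_helper52.Injective

set_option autoImplicit false

open CongruenceSubgroup
open scoped MatrixGroups

namespace Fermat.Agent.S21_helper64

open ModularCurve ModularCurve.Period

variable (N : ℕ) [NeZero N]

/-- Everything except the lower bound `[C]` for the cusp forms. -/
theorem squeeze_of_lower
    (hC : genusFormula N ≤ (Module.finrank ℂ (CuspForm (Gamma0 N) 2) : ℚ)) :
    ((Module.finrank ℂ (CuspForm (Gamma0 N) 2) : ℚ) = genusFormula N) ∧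
      (Function.Injective (periodHomPair N) ∧
        LinearMap.range (periodHomPair N) = parabolicHoms ℂ (Gamma0 N) ℂ) :=
  Fermat.Agent.S21_helper65.squeeze N
    (Fermat.Agent.S21_helper52.periodHomPair_injective N
      (Fermat.Agent.S21_helper65.exists_hasEquivariantPrimitive (N := N))
      (Fermat.Agent.S21_helper65.existsPeriodMapLinear N))
    (finite_parabolicHoms N) (finrank_parabolicHoms_le N) hC

theorem s20_of_lower
    (hC : genusFormula N ≤ (Module.finrank ℂ (CuspForm (Gamma0 N) 2) : ℚ)) :
    (Module.finrank ℂ (CuspForm (Gamma0 N) 2) : ℚ) = genusFormula N :=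
  (squeeze_of_lower N hC).1

theorem s21_of_lower
    (hC : genusFormula N ≤ (Module.finrank ℂ (CuspForm (Gamma0 N) 2) : ℚ)) :
    Function.Injective (periodHomPair N) ∧
      LinearMap.range (periodHomPair N) = parabolicHoms ℂ (Gamma0 N) ℂ :=
  (squeeze_of_lower N hC).2

/-- the upper bound half of the dimension formula, unconditional -/
theorem finrank_cuspForm_two_le :
    (Module.finrank ℂ (CuspForm (Gamma0 N) 2) : ℚ) ≤ genusFormula N := by
  classical
  have hA := Fermat.Agent.S21_helper52.periodHomPair_injective N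
      (Fermat.Agent.S21_helper65.exists_hasEquivariantPrimitive (N := N))
      (Fermat.Agent.S21_helper65.existsPeriodMapLinear N)
  have hfin := finite_parabolicHoms N
  set P' : (CuspForm (Gamma0 N) 2 × CuspForm (Gamma0 N) 2) →ₗ[ℂ]
      parabolicHoms ℂ (Gamma0 N) ℂ :=
    LinearMap.codRestrict _ (periodHomPair N)
      (fun x => Fermat.Agent.S21_helper65.range_periodHomPair_le (N := N) ⟨x, rfl⟩) with hP'
  have hP'inj : Function.Injective P' := by
    intro x y hxy
    apply hA
    have := congrArg Subtype.val hxy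
    simpa [hP'] using this
  have : Module.Finite ℂ (CuspForm (Gamma0 N) 2 × CuspForm (Gamma0 N) 2) :=
    Module.Finite.of_injective P' hP'inj
  have : Module.Finite ℂ (CuspForm (Gamma0 N) 2) :=
    Module.Finite.of_injective (LinearMap.inl ℂ _ (CuspForm (Gamma0 N) 2)) LinearMap.inl_injective
  have h1 : Module.finrank ℂ (CuspForm (Gamma0 N) 2 × CuspForm (Gamma0 N) 2)
      ≤ Module.finrank ℂ (parabolicHoms ℂ (Gamma0 N) ℂ) :=
    LinearMap.finrank_le_finrank_of_injective hP'inj
  have h2 : Module.finrank ℂ (CuspForm (Gamma0 N) 2 × CuspForm (Gamma0 N) 2)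
      = 2 * Module.finrank ℂ (CuspForm (Gamma0 N) 2) := by
    rw [Module.finrank_prod]; ring
  have h1q : (2 : ℚ) * (Module.finrank ℂ (CuspForm (Gamma0 N) 2) : ℚ)
      ≤ (Module.finrank ℂ (parabolicHoms ℂ (Gamma0 N) ℂ) : ℚ) := by
    rw [h2] at h1
    exact_mod_cast h1
  have := finrank_parabolicHoms_le N
  linarith

end Fermat.Agent.S21_helper64
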