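import Fermat.Agent.S21_helper64.CocycleBasic

set_option autoImplicit false

namespace Fermat.Agent.S21_helper64

open Module

noncomputable section

variable {G : Type*} [Group G] {X : Type*} [MulAction G X]

/-- the trace of the permutation operator is the number of fixed points -/
lemma trace_Rop [Finite X] (g : G) :
    LinearMap.trace ℂ (X → ℂ) (Rop g) = (Nat.card {x : X // g • x = x} : ℂ) := by
  classical
  have := Fintype.ofFinite X
  rw [LinearMap.trace_eq_matrix_trace ℂ (Pi.basisFun ℂ X), Matrix.trace]
  have hdiag : ∀ i : X, (LinearMap.toMatrix (Pi.basisFun ℂ X) (Pi.basisFun ℂ X) (Rop g)).diag i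
      = if g • i = i then 1 else 0 := by
    intro i
    simp only [Matrix.diag_apply, LinearMap.toMatrix_apply, Pi.basisFun_apply, Pi.basisFun_repr,
      Rop_apply, Pi.single_apply]
  simp only [hdiag]
  rw [Finset.sum_boole, Nat.card_eq_fintype_card, Fintype.card_subtype]

lemma mem_invKer (g : G) (v : X → ℂ) :
    v ∈ LinearMap.ker (Rop g - LinearMap.id : (X → ℂ) →ₗ[ℂ] (X → ℂ)) ↔ ∀ x, v (g • x) = v x := by
  simp only [LinearMap.mem_ker, LinearMap.sub_apply, LinearMap.id_apply, sub_eq_zero]
  constructor
  · intro h x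
    have := congrFun h x
    simpa using this
  · intro h
    funext x
    simpa using h x

lemma two_mul_finrank_invKer [Finite X] (g : G) (hg : ∀ x : X, g • g • x = x) :
    2 * finrank ℂ (LinearMap.ker (Rop g - LinearMap.id : (X → ℂ) →ₗ[ℂ] (X → ℂ)))
      = Nat.card X + Nat.card {x : X // g • x = x} := by
  classical
  have := Fintype.ofFinite X
  set p := LinearMap.ker (Rop g - LinearMap.id : (X → ℂ) →ₗ[ℂ] (X → ℂ)) with hp
  set π : (X → ℂ) →ₗ[ℂ] (X → ℂ) := (1 / 2 : ℂ) • (LinearMap.id + Rop g) with hπ
  have hproj : LinearMap.IsProj p π := by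
    constructor
    · intro v
      rw [hp, mem_invKer]
      intro x
      simp only [hπ, LinearMap.smul_apply, LinearMap.add_apply, LinearMap.id_apply, Pi.smul_apply,
        Pi.add_apply, Rop_apply, hg]
      ring
    · intro v hv
      rw [hp, mem_invKer] at hv
      funext x
      simp only [hπ, LinearMap.smul_apply, LinearMap.add_apply, LinearMap.id_apply, Pi.smul_apply,
        Pi.add_apply, Rop_apply, hv, smul_eq_mul]
      ring
  have htr := hproj.trace
  rw [hπ, map_smul, map_add, trace_Rop, LinearMap.trace_id, Module.finrank_fintype_fun_eq_card,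
    ← Nat.card_eq_fintype_card] at htr
  have h2 : ((Nat.card X : ℂ) + (Nat.card {x : X // g • x = x} : ℂ)) = 2 * (finrank ℂ p : ℂ) := by
    rw [← htr, smul_eq_mul]; ring
  have h3 : ((Nat.card X + Nat.card {x : X // g • x = x} : ℕ) : ℂ) = ((2 * finrank ℂ p : ℕ) : ℂ) := by
    push_cast; exact h2
  exact (Nat.cast_injective h3).symm

lemma three_mul_finrank_invKer [Finite X] (g : G) (hg : ∀ x : X, g • g • g • x = x) :
    3 * finrank ℂ (LinearMap.ker (Rop g - LinearMap.id : (X → ℂ) →ₗ[ℂ] (X → ℂ)))
      = Nat.card X + 2 * Nat.card {x : X // g • x = x} := by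
  classical
  have := Fintype.ofFinite X
  set p := LinearMap.ker (Rop g - LinearMap.id : (X → ℂ) →ₗ[ℂ] (X → ℂ)) with hp
  set π : (X → ℂ) →ₗ[ℂ] (X → ℂ) := (1 / 3 : ℂ) • (LinearMap.id + Rop g + Rop (g * g)) with hπ
  have hproj : LinearMap.IsProj p π := by
    constructor
    · intro v
      rw [hp, mem_invKer]
      intro x
      simp only [hπ, LinearMap.smul_apply, LinearMap.add_apply, LinearMap.id_apply, Pi.smul_apply,
        Pi.add_apply, Rop_apply, mul_smul, hg]
      ring
    · intro v hv
      rw [hp, mem_invKer] at hv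
      funext x
      simp only [hπ, LinearMap.smul_apply, LinearMap.add_apply, LinearMap.id_apply, Pi.smul_apply,
        Pi.add_apply, Rop_apply, mul_smul, hv, smul_eq_mul]
      ring
  have hfix : Nat.card {x : X // (g * g) • x = x} = Nat.card {x : X // g • x = x} := by
    apply Nat.card_congr
    refine Equiv.subtypeEquivRight ?_
    intro x
    rw [mul_smul]
    constructor
    · intro h
      have := congrArg (fun y => g • y) h
      simp only [hg] at this
      exact this.symm
    · intro h
      rw [h, h]
  have htr := hproj.trace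
  rw [hπ, map_smul, map_add, map_add, trace_Rop, trace_Rop, hfix, LinearMap.trace_id,
    Module.finrank_fintype_fun_eq_card, ← Nat.card_eq_fintype_card] at htr
  have h2 : ((Nat.card X : ℂ) + 2 * (Nat.card {x : X // g • x = x} : ℂ)) = 3 * (finrank ℂ p : ℂ) := by
    rw [← htr, smul_eq_mul]; ring
  have h3 : ((Nat.card X + 2 * Nat.card {x : X // g • x = x} : ℕ) : ℂ)
      = ((3 * finrank ℂ p : ℕ) : ℂ) := by
    push_cast; exact h2
  exact (Nat.cast_injective h3).symm

end

end Fermat.Agent.S21_helper64
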